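/-
MLT / [L2] / P2 (helper1), part 3: **(G-B) modulo `p` from the norm relations** (no rigidity, no abelian part).

* `mltj2_stepB_res` (abstract, extracted from `t4n_stepB`): for `y ∈ D.U` with `N_α y`, `N_β y` `constant × m`-th
  powers: `r_∞ y`, `r_0 y` and `(r_mid y)^(q-1)` are `m`-th powers;
* **`mltj2_res_of_push`**: a class of the `W`-eigenspace of `J₀(K q q)[p]`, `W[p]` irreducible, fixed by the inertia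
  group and killed by the two push-forwards to the level `K q`, is the Kummer class of a function `y ∈ D.U` over
  the inertia field with `r_∞ y`, `r_0 y`, `(r_mid y)^(q-1)` `p`-th powers (any level `K` prime to `q`);
* `mltj2_triv_two`: for `q = 2` the three residues are `p`-th powers (`MltL2AbTriv`): the entry of (G-tor) in the
  non-rigid case (γ) (`p = 3`, `q = 2`).
-/
import Mathlib
import Fermat.Agent.Lib.MLT.L2.P2.Triv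
import Fermat.Agent.Lib.T4.New.StepB

set_option autoImplicit false
set_option linter.unusedSectionVars false
set_option linter.unusedVariables false
set_option linter.style.haveILetI false
set_option synthInstance.maxHeartbeats 400000

open WeierstrassCurve

namespace Fermat.Agent.MLT

open HahnSeries ModularCurve AlgebraicCurve Fermat.Agent.T1 Fermat.Agent.T2 Fermat.Agent.T4
  Fermat.Agent.TW Fermat.Agent.S24Lib Fermat.Agent.Delta Fermat.Agent.T3 Fermat.Agent.Alpha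

local notation "Qb" => AlgebraicClosure ℚ
local notation "GQ" => (AlgebraicClosure ℚ ≃ₐ[ℚ] AlgebraicClosure ℚ)

noncomputable section

section Abstract

variable {L F1 F : Type} [Field L] [Field F1] [Field F] {q m : ℕ} (D : T4nA L F1 F q m)
  {k E1 E : Type} [Field k] [Field E1] [Field E] (B : T4nB D k E1 E)

/-- **(G-B) modulo `m`**: the three residues of a unit whose two norms are `constant × m`-th powers -/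
theorem mltj2_stepB_res (hm : m ≠ 0) (hqm : Nat.Coprime m q) (yU : ↥D.U)
    (hα : ∃ (c : Lˣ) (g : F1ˣ), D.Nα (yU : Fˣ) = D.cF1 c * g ^ m)
    (hβ : ∃ (c : Lˣ) (g : F1ˣ), D.Nβ (yU : Fˣ) = D.cF1 c * g ^ m) :
    (∃ h : Eˣ, B.rinf yU = h ^ m) ∧ (∃ h : Eˣ, B.rmid yU ^ (q - 1) = h ^ m) ∧
      (∃ h : Eˣ, B.r0 yU = h ^ m) := by
  have hy : (yU : Fˣ) ∈ D.U := yU.2
  obtain ⟨c₁, g₁, hc₁, hg₁, h₁⟩ := D.normalise hm (D.Nα_mem_U1 hy) hα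
  obtain ⟨c₂, g₂, hc₂, hg₂, h₂⟩ := D.normalise hm (D.Nβ_mem_U1 hy) hβ
  have h0 : ∃ h : Eˣ, B.r0 yU = h ^ m := by
    apply t4n_isMth_of_pow hqm
    rw [← B.red_α_0 yU]
    obtain ⟨a, ha⟩ := T4nB.r10_isMth D B (D.Nα_mem_U1 hy) hc₁ hg₁ h₁
    obtain ⟨b, hb⟩ := B.Φ_κ a
    obtain ⟨b', hb'⟩ := T4nB.κ_isMth D B b
    exact ⟨b' * B.Φ (B.r10 ⟨g₁, hg₁⟩), by rw [ha, map_mul, map_pow, hb, hb', mul_pow]⟩
  have hinf : ∃ h : Eˣ, B.rinf yU = h ^ m := by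
    apply t4n_isMth_of_pow hqm
    rw [← B.red_β_inf yU]
    obtain ⟨a, ha⟩ := T4nB.r1inf_isMth D B (D.Nβ_mem_U1 hy) hc₂ hg₂ h₂
    obtain ⟨b, hb⟩ := B.Φ_κ a
    obtain ⟨b', hb'⟩ := T4nB.κ_isMth D B b
    exact ⟨b' * B.Φ (B.r1inf ⟨g₂, hg₂⟩), by rw [ha, map_mul, map_pow, hb, hb', mul_pow]⟩
  have hmid : ∃ h : Eˣ, B.rmid yU ^ (q - 1) = h ^ m := by
    obtain ⟨a, ha⟩ := T4nB.r1inf_isMth D B (D.Nα_mem_U1 hy) hc₁ hg₁ h₁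
    obtain ⟨b, hb⟩ := B.ι_κ a
    obtain ⟨b', hb'⟩ := T4nB.κ_isMth D B b
    obtain ⟨h, hh⟩ := hinf
    have e := B.red_α_inf yU
    rw [ha, map_mul, map_pow, hb, hb', hh] at e
    refine ⟨b' * B.ι (B.r1inf ⟨g₁, hg₁⟩) * h⁻¹, ?_⟩
    rw [mul_pow, mul_pow, inv_pow, e, mul_comm (h ^ m), mul_inv_cancel_right]
  exact ⟨hinf, hmid, h0⟩

end Abstract

section Main

variable (𝔓 : FFPlace) (K : ℕ) [NeZero K] (hK : ¬ 𝔓.p ∣ K) {ζ : Qb} (hζ : IsPrimitiveRoot ζ 𝔓.p)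

/-- **(G-A) + (G-B) modulo `p` from the push-forwards**: the class is the Kummer class of a function of `D.U`
over the inertia field with `r_∞`, `r_0`, `r_mid^(q-1)` `p`-th powers -/
theorem mltj2_res_of_push (p : ℕ) (hp : p.Prime) (hp2 : p ≠ 2) (hpq : Nat.Coprime p 𝔓.p)
    (hvert : MltjVertHeckeAt 𝔓 K hK hζ p)
    (W : WeierstrassCurve ℤ) (hΔ : W.Δ ≠ 0) (hirr : W.ModRepIsIrreducible p)
    (x : JZero (K * 𝔓.p * 𝔓.p)) (hxE : x ∈ dlwEig (K * 𝔓.p * 𝔓.p) p W)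
    (hI : ∀ σ ∈ 𝔓.I, σ • x = x)
    (hA : dlwPushA (K * 𝔓.p) 𝔓.p x = 0) (hB : dlwPushB (K * 𝔓.p) 𝔓.p x = 0) :
    ∃ y : ↥(t4niAFix 𝔓 K hK hζ p).U,
      (y : (↥(tbLevF 𝔓 (K * 𝔓.p * 𝔓.p) ⊤))ˣ) ∈ tWsub ↥(tbFix 𝔓 ⊤) (K * 𝔓.p * 𝔓.p) p ∧
      (∃ hy : ∀ P : Place Qb ↥(modularFunctionFieldBar (K * 𝔓.p * 𝔓.p)),
          (p : ℤ) ∣ P.ord ((mltj1PhiU 𝔓 (K * 𝔓.p * 𝔓.p)
            (y : (↥(tbLevF 𝔓 (K * 𝔓.p * 𝔓.p) ⊤))ˣ) :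
              (↥(modularFunctionFieldBar (K * 𝔓.p * 𝔓.p)))ˣ) :
                ↥(modularFunctionFieldBar (K * 𝔓.p * 𝔓.p))),
        alpfClass hp.ne_zero (mltj1PhiU 𝔓 (K * 𝔓.p * 𝔓.p)
          (y : (↥(tbLevF 𝔓 (K * 𝔓.p * 𝔓.p) ⊤))ˣ)) hy = x) ∧
      (∃ t : (↥(tbBarF 𝔓 K))ˣ, (t4niBFix 𝔓 K hK hζ p hp.ne_zero hpq).rinf y = t ^ p) ∧
      (∃ t : (↥(tbBarF 𝔓 K))ˣ, (t4niBFix 𝔓 K hK hζ p hp.ne_zero hpq).rmid y ^ (𝔓.p - 1) = t ^ p) ∧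
      (∃ t : (↥(tbBarF 𝔓 K))ˣ, (t4niBFix 𝔓 K hK hζ p hp.ne_zero hpq).r0 y = t ^ p) := by
  have h := mltj2_unit 𝔓 K hK hζ p hp hp2 hvert W hΔ hirr x hxE hI
  refine h.elim fun y h1 => ?_
  refine h1.2.elim fun hy hcl => ?_
  have hyL := h1.1
  have hA' : dlwPushA (K * 𝔓.p) 𝔓.p (alpfClass hp.ne_zero (mltj1PhiU 𝔓 (K * 𝔓.p * 𝔓.p)
      (y : (↥(tbLevF 𝔓 (K * 𝔓.p * 𝔓.p) ⊤))ˣ)) hy) = 0 := by rw [hcl]; exact hA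
  have hB' : dlwPushB (K * 𝔓.p) 𝔓.p (alpfClass hp.ne_zero (mltj1PhiU 𝔓 (K * 𝔓.p * 𝔓.p)
      (y : (↥(tbLevF 𝔓 (K * 𝔓.p * 𝔓.p) ⊤))ˣ)) hy) = 0 := by rw [hcl]; exact hB
  obtain ⟨hα, hβ⟩ := mltj1_norms_D 𝔓 K hK hζ hp.ne_zero hpq
    (y : (↥(tbLevF 𝔓 (K * 𝔓.p * 𝔓.p) ⊤))ˣ) hy hA' hB'
  obtain ⟨h1, h2, h3⟩ := mltj2_stepB_res (t4niAFix 𝔓 K hK hζ p)
    (t4niBFix 𝔓 K hK hζ p hp.ne_zero hpq) hp.ne_zero hpq y hα hβ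
  exact ⟨y, hyL, ⟨hy, hcl⟩, h1, h2, h3⟩

/-- **`q = 2`**: the three residues are `p`-th powers -/
theorem mltj2_triv_two (hq2 : 𝔓.p = 2) (p : ℕ) (hp : p.Prime) (hp2 : p ≠ 2)
    (hpq : Nat.Coprime p 𝔓.p) (hvert : MltjVertHeckeAt 𝔓 K hK hζ p)
    (W : WeierstrassCurve ℤ) (hΔ : W.Δ ≠ 0) (hirr : W.ModRepIsIrreducible p)
    (x : JZero (K * 𝔓.p * 𝔓.p)) (hxE : x ∈ dlwEig (K * 𝔓.p * 𝔓.p) p W)
    (hI : ∀ σ ∈ 𝔓.I, σ • x = x)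
    (hA : dlwPushA (K * 𝔓.p) 𝔓.p x = 0) (hB : dlwPushB (K * 𝔓.p) 𝔓.p x = 0) :
    ∃ y : ↥(t4niAFix 𝔓 K hK hζ p).U,
      (y : (↥(tbLevF 𝔓 (K * 𝔓.p * 𝔓.p) ⊤))ˣ) ∈ tWsub ↥(tbFix 𝔓 ⊤) (K * 𝔓.p * 𝔓.p) p ∧
      MltL2AbTriv 𝔓 K hK hζ p hp.ne_zero hpq y ∧
      ∃ hy : ∀ P : Place Qb ↥(modularFunctionFieldBar (K * 𝔓.p * 𝔓.p)),
          (p : ℤ) ∣ P.ord ((mltj1PhiU 𝔓 (K * 𝔓.p * 𝔓.p)
            (y : (↥(tbLevF 𝔓 (K * 𝔓.p * 𝔓.p) ⊤))ˣ) :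
              (↥(modularFunctionFieldBar (K * 𝔓.p * 𝔓.p)))ˣ) :
                ↥(modularFunctionFieldBar (K * 𝔓.p * 𝔓.p))),
        alpfClass hp.ne_zero (mltj1PhiU 𝔓 (K * 𝔓.p * 𝔓.p)
          (y : (↥(tbLevF 𝔓 (K * 𝔓.p * 𝔓.p) ⊤))ˣ)) hy = x := by
  have h := mltj2_res_of_push 𝔓 K hK hζ p hp hp2 hpq hvert W hΔ hirr x hxE hI hA hB
  refine h.elim fun y h0 => ?_
  have hyL := h0.1
  have h1 := h0.2.2.1
  have h2 := h0.2.2.2.1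
  have h3 := h0.2.2.2.2
  refine h0.2.1.elim fun hy hcl => ?_
  refine ⟨y, hyL, ⟨h1, ?_, h3⟩, hy, hcl⟩
  refine h2.elim fun t ht => ⟨t, ?_⟩
  have h4 : 𝔓.p - 1 = 1 := by rw [hq2]
  rw [h4, pow_one] at ht
  exact ht

end Main

end

end Fermat.Agent.MLT
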