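/-
MLT / [L2] / P2 (helper1): **(G-A) modulo `p`: the Kummer function of a `q`-new inertia-fixed eigenclass can be chosen
a UNIT at the three vertical valuations** `v_∞, v_mid, v_0` of the T4 model (`D.U`, `D = t4niAFix 𝔓 K hK hζ p`).

The proof does NOT use the norm relations: it is the Eisenstein argument alone.
* contract `MltjVertHeckeAt` (owner: P5, helper7): `T_ℓ^fun` preserves `L`-rationality (`L = ℚ̄^I`) and multiplies the three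
  vertical valuations by `ℓ + 1` (residue degree = degree for the norm `N_{α_ℓ}`; `β_ℓ` is unramified on vertical
  components);
* `mltj2_shape_of_hecke`: `v(y') = (ℓ + 1) v(y)`, `y' = y^a · c · g^p`, `p ∤ ℓ + 1 - a` ⟹ `v(y) ≡ t·(1, q-1, 1) mod p`;
* `mltj2_unit_of_shape`: `v(y) ≡ t·(1, q-1, 1) mod p` ⟹ `y / (c · g^p) ∈ D.U`;
* **`mltj2_unit`**: for `x ≠ 0` in `dlwEig (K q q) p W`, `W[p]` irreducible, fixed by inertia, killed by both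
  push-forwards: `x = [div(Φ y)/p]` with `y ∈ D.U`, `y ∈ tWsub L (K q q) p`.
-/
import Mathlib
import Fermat.Agent.Lib.MLT.L2.P1.Dict
import Fermat.Agent.Lib.Delta.Wire.HeckeClass
import Fermat.Agent.Lib.Delta.Wire.EigenSpace
import Fermat.Agent.Lib.LR.E.Main

set_option autoImplicit false
set_option linter.unusedSectionVars false
set_option linter.unusedVariables false
set_option linter.style.haveILetI false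
set_option synthInstance.maxHeartbeats 400000

open WeierstrassCurve

namespace Fermat.Agent.MLT

open HahnSeries ModularCurve AlgebraicCurve Fermat.Agent.T1 Fermat.Agent.T2 Fermat.Agent.T4
  Fermat.Agent.TW Fermat.Agent.S24Lib Fermat.Agent.Delta Fermat.Agent.T3 Fermat.Agent.Alpha

local notation "Qb" => AlgebraicClosure ℚ
local notation "GQ" => (AlgebraicClosure ℚ ≃ₐ[ℚ] AlgebraicClosure ℚ)

noncomputable section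

/-! ### The abstract Eisenstein step -/

section Abstract

variable {L F1 F : Type} [Field L] [Field F1] [Field F] {q m : ℕ} (D : T4nA L F1 F q m)

/-- the shape `t·(1, q-1, 1)` modulo `p` of the three vertical valuations -/
def MltjShape (p : ℕ) (y : Fˣ) : Prop :=
  ∃ t : ℤ, (p : ℤ) ∣ D.vinf (Additive.ofMul y) - t ∧
    (p : ℤ) ∣ D.vmid (Additive.ofMul y) - ((q : ℤ) - 1) * t ∧
    (p : ℤ) ∣ D.v0 (Additive.ofMul y) - t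

/-- a function of the shape `t·(1, q-1, 1)` modulo `p` is a unit at the three valuations up to a constant and
a `p`-th power -/
theorem mltj2_unit_of_shape {p : ℕ} (hp : p ≠ 0) (y : Fˣ) (h : MltjShape D p y) :
    ∃ (c : Lˣ) (g : Fˣ), y * (D.cF c * g ^ p)⁻¹ ∈ D.U := by
  obtain ⟨t, ⟨a, ha⟩, ⟨b, hb⟩, ⟨c, hc⟩⟩ := h
  obtain ⟨g, hg1, hg2, hg3⟩ := D.approx_v a b c
  refine ⟨D.π ^ t, g, ?_, ?_, ?_⟩
  · show D.vinf (Additive.ofMul (y * (D.cF (D.π ^ t) * g ^ p)⁻¹)) = 0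
    rw [ofMul_mul, map_add, ofMul_inv, map_neg, ofMul_mul, map_add, D.vinf_c, D.vL_zpow, ofMul_pow,
      map_nsmul, hg1, nsmul_eq_mul]
    linarith
  · show D.vmid (Additive.ofMul (y * (D.cF (D.π ^ t) * g ^ p)⁻¹)) = 0
    rw [ofMul_mul, map_add, ofMul_inv, map_neg, ofMul_mul, map_add, D.vmid_c, D.vL_zpow, ofMul_pow,
      map_nsmul, hg2, nsmul_eq_mul]
    linarith
  · show D.v0 (Additive.ofMul (y * (D.cF (D.π ^ t) * g ^ p)⁻¹)) = 0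
    rw [ofMul_mul, map_add, ofMul_inv, map_neg, ofMul_mul, map_add, D.v0_c, D.vL_zpow, ofMul_pow,
      map_nsmul, hg3, nsmul_eq_mul]
    linarith

/-- **the Eisenstein step**: if `v(y') = (ℓ + 1) v(y)` and `y' = y^a · c · g^p` with `p ∤ ℓ + 1 - a` then
`v(y) ≡ t·(1, q-1, 1)` modulo `p` -/
theorem mltj2_shape_of_hecke {p : ℕ} (y y' : Fˣ) (ℓ a : ℤ)
    (hinf : D.vinf (Additive.ofMul y') = (ℓ + 1) * D.vinf (Additive.ofMul y))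
    (hmid : D.vmid (Additive.ofMul y') = (ℓ + 1) * D.vmid (Additive.ofMul y))
    (h0 : D.v0 (Additive.ofMul y') = (ℓ + 1) * D.v0 (Additive.ofMul y))
    (c : Lˣ) (g : Fˣ) (hy' : y' = y ^ a * (D.cF c * g ^ p))
    (hne : IsCoprime (ℓ + 1 - a) (p : ℤ)) : MltjShape D p y := by
  obtain ⟨u, k, huk⟩ := hne
  -- `u (ℓ + 1 - a) + k p = 1`
  have e1 : (ℓ + 1 - a) * D.vinf (Additive.ofMul y)
      = D.vL (Additive.ofMul c) + p * D.vinf (Additive.ofMul g) := by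
    have := hinf
    rw [hy', ofMul_mul, map_add, ofMul_zpow, map_zsmul, ofMul_mul, map_add, D.vinf_c, ofMul_pow,
      map_nsmul, nsmul_eq_mul, smul_eq_mul] at this
    linarith
  have e2 : (ℓ + 1 - a) * D.vmid (Additive.ofMul y)
      = ((q : ℤ) - 1) * D.vL (Additive.ofMul c) + p * D.vmid (Additive.ofMul g) := by
    have := hmid
    rw [hy', ofMul_mul, map_add, ofMul_zpow, map_zsmul, ofMul_mul, map_add, D.vmid_c, ofMul_pow,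
      map_nsmul, nsmul_eq_mul, smul_eq_mul] at this
    linarith
  have e3 : (ℓ + 1 - a) * D.v0 (Additive.ofMul y)
      = D.vL (Additive.ofMul c) + p * D.v0 (Additive.ofMul g) := by
    have := h0
    rw [hy', ofMul_mul, map_add, ofMul_zpow, map_zsmul, ofMul_mul, map_add, D.v0_c, ofMul_pow,
      map_nsmul, nsmul_eq_mul, smul_eq_mul] at this
    linarith
  refine ⟨u * D.vL (Additive.ofMul c),
    ⟨u * D.vinf (Additive.ofMul g) + k * D.vinf (Additive.ofMul y), ?_⟩,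
    ⟨u * D.vmid (Additive.ofMul g) + k * D.vmid (Additive.ofMul y), ?_⟩,
    ⟨u * D.v0 (Additive.ofMul g) + k * D.v0 (Additive.ofMul y), ?_⟩⟩
  · linear_combination (-(D.vinf (Additive.ofMul y))) * huk + u * e1
  · linear_combination (-(D.vmid (Additive.ofMul y))) * huk + u * e2
  · linear_combination (-(D.v0 (Additive.ofMul y))) * huk + u * e3

end Abstract

/-! ### The contract and the main statement -/

section Main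

variable (𝔓 : FFPlace) (K : ℕ) [NeZero K] (hK : ¬ 𝔓.p ∣ K) {ζ : Qb} (hζ : IsPrimitiveRoot ζ 𝔓.p)

/-- (VERT-HECKE) for an abstract triple of valuations `D` -/
def MltjVertHeckeD {p : ℕ} (D : T4nA ↥(tbFix 𝔓 (⊤ : Subgroup 𝔓.I)) ↥(tbLevF 𝔓 (K * 𝔓.p) ⊤)
    ↥(tbLevF 𝔓 (K * 𝔓.p * 𝔓.p) ⊤) 𝔓.p p) : Prop :=
  ∀ (ℓ : ℕ) [NeZero ℓ], ℓ.Prime → ¬ ℓ ∣ K * 𝔓.p * 𝔓.p →
    ∀ y : (↥(tbLevF 𝔓 (K * 𝔓.p * 𝔓.p) ⊤))ˣ,
      ∃ y' : (↥(tbLevF 𝔓 (K * 𝔓.p * 𝔓.p) ⊤))ˣ,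
        mltj1PhiU 𝔓 (K * 𝔓.p * 𝔓.p) y'
          = tkrHeckeUnits (K * 𝔓.p * 𝔓.p) ℓ (mltj1PhiU 𝔓 (K * 𝔓.p * 𝔓.p) y) ∧
        D.vinf (Additive.ofMul y') = ((ℓ : ℤ) + 1) * D.vinf (Additive.ofMul y) ∧
        D.vmid (Additive.ofMul y') = ((ℓ : ℤ) + 1) * D.vmid (Additive.ofMul y) ∧
        D.v0 (Additive.ofMul y') = ((ℓ : ℤ) + 1) * D.v0 (Additive.ofMul y)

/-- **(VERT-HECKE)** (contract, owner P5): `T_ℓ^fun`, `ℓ ∤ K q`, preserves rationality over the inertia field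
and multiplies the three vertical valuations of the T4 model by `ℓ + 1` -/
def MltjVertHeckeAt (p : ℕ) : Prop :=
  MltjVertHeckeD 𝔓 K (t4niAFix 𝔓 K hK hζ p)

/-- the class of a constant times a `p`-th power, multiplied in -/
theorem mltj2_class_mul_const_pow (N : ℕ) [NeZero N] {p : ℕ} (hp0 : p ≠ 0)
    (z u : (↥(tbLevF 𝔓 N ⊤))ˣ)
    (hz : ∀ P : Place Qb ↥(modularFunctionFieldBar N),
      (p : ℤ) ∣ P.ord ((mltj1PhiU 𝔓 N z : (↥(modularFunctionFieldBar N))ˣ) :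
        ↥(modularFunctionFieldBar N)))
    (hzu : ∀ P : Place Qb ↥(modularFunctionFieldBar N),
      (p : ℤ) ∣ P.ord ((mltj1PhiU 𝔓 N (z * u) : (↥(modularFunctionFieldBar N))ˣ) :
        ↥(modularFunctionFieldBar N)))
    (hu : ∃ (c : ↥(tbFix 𝔓 ⊤)) (t : ↥(tbLevF 𝔓 N ⊤)), (u : ↥(tbLevF 𝔓 N ⊤)) = c • t ^ p) :
    alpfClass hp0 (mltj1PhiU 𝔓 N (z * u)) hzu = alpfClass hp0 (mltj1PhiU 𝔓 N z) hz := by
  have huW : ∀ P : Place Qb ↥(modularFunctionFieldBar N),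
      (p : ℤ) ∣ P.ord ((mltj1PhiU 𝔓 N u : (↥(modularFunctionFieldBar N))ˣ) :
        ↥(modularFunctionFieldBar N)) := by
    have h1 : mltj1PhiU 𝔓 N u = (mltj1PhiU 𝔓 N z)⁻¹ * mltj1PhiU 𝔓 N (z * u) := by
      rw [map_mul, inv_mul_cancel_left]
    rw [h1]
    exact (tWsub Qb N p).mul_mem ((tWsub Qb N p).inv_mem hz) hzu
  have h2 := alpfClass_mul hp0 (mltj1PhiU 𝔓 N z) (mltj1PhiU 𝔓 N u) hz huW
    (by rw [← map_mul]; exact hzu)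
  rw [mltj1_class_eq_zero 𝔓 N hp0 u huW hu, add_zero] at h2
  rw [← h2]
  exact dlw_class_congr hp0 (map_mul _ _ _) _ _

/-- a non-Eisenstein prime outside a finite set -/
theorem mltj2_exists_nonEis (W : WeierstrassCurve ℤ) (hΔ : W.Δ ≠ 0) {p : ℕ} (hp : p.Prime)
    (hp2 : p ≠ 2) (hirr : W.ModRepIsIrreducible p) (T : Finset ℕ) :
    ∃ ℓ : ℕ, ℓ.Prime ∧ ℓ ∉ T ∧ W.IsGoodPrimeFor ℓ ∧
      ¬ (p : ℤ) ∣ ((ℓ : ℤ) + 1 - W.apOfModel ℓ) := by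
  by_contra hcon
  push Not at hcon
  exact Fermat.Agent.LR.lre_not_irreducible_of_eisenstein W hΔ hp hp2 T
    (fun l hl hlT hg => hcon l hl hlT hg) hirr

/-- the Kummer class of `T_ℓ^fun y` for an eigenclass: `T_ℓ^fun y = y^a · t^p` -/
theorem mltj2_hecke_eq (N : ℕ) [NeZero N] {p : ℕ} (hp0 : p ≠ 0) {ℓ : ℕ} [NeZero ℓ] (hℓ : ℓ.Prime)
    (hℓN : ¬ ℓ ∣ N) (a : ℤ) (Y : (↥(modularFunctionFieldBar N))ˣ)
    (hY : ∀ v : Place Qb ↥(modularFunctionFieldBar N),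
      (p : ℤ) ∣ v.ord (Y : ↥(modularFunctionFieldBar N)))
    (hT : heckeOperatorBar N ⟨ℓ, hℓ⟩ (alpfClass hp0 Y hY) = a • alpfClass hp0 Y hY) :
    ∃ t : (↥(modularFunctionFieldBar N))ˣ, tkrHeckeUnits N ℓ Y = Y ^ a * t ^ p := by
  have hY' := dlw_hecke_dvd N hℓ hℓN Y hY
  rw [dlw_class_hecke N hℓ hℓN hp0 Y hY hY'] at hT
  set Yw : tWsub Qb N p := ⟨Y, hY⟩ with hYw
  set Yw' : tWsub Qb N p := ⟨tkrHeckeUnits N ℓ Y, hY'⟩ with hYw'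
  have h1 : alptKumW N p hp0 (Yw' * (Yw ^ a)⁻¹) = 1 := by
    rw [map_mul, map_inv, map_zpow, mul_inv_eq_one]
    apply Multiplicative.toAdd.injective
    apply Subtype.ext
    rw [toAdd_zpow, alptKumW_coe]
    show alpfClass hp0 (tkrHeckeUnits N ℓ Y) hY' = _
    rw [hT]
    simp only [SetLike.val_smul]
    rfl
  rw [alptKumW_eq_one_iff, mem_tdmPowSub] at h1
  obtain ⟨t, ht⟩ := h1
  refine ⟨t, ?_⟩
  have h2 : ((Yw' * (Yw ^ a)⁻¹ : tWsub Qb N p) : (↥(modularFunctionFieldBar N))ˣ)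
      = tkrHeckeUnits N ℓ Y * (Y ^ a)⁻¹ := by
    simp only [Subgroup.coe_mul, Subgroup.coe_inv, Subgroup.coe_zpow, hYw, hYw']
  rw [h2] at ht
  rw [ht, mul_comm (Y ^ a), inv_mul_cancel_right]

/-- the output of (G-A): `x` is the Kummer class of a unit at the three valuations `D` -/
def MltjUnitOut {p : ℕ} (hp0 : p ≠ 0) (D : T4nA ↥(tbFix 𝔓 (⊤ : Subgroup 𝔓.I)) ↥(tbLevF 𝔓 (K * 𝔓.p) ⊤)
    ↥(tbLevF 𝔓 (K * 𝔓.p * 𝔓.p) ⊤) 𝔓.p p) (x : JZero (K * 𝔓.p * 𝔓.p)) : Prop :=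
  ∃ y : ↥D.U,
    (y : (↥(tbLevF 𝔓 (K * 𝔓.p * 𝔓.p) ⊤))ˣ) ∈ tWsub ↥(tbFix 𝔓 ⊤) (K * 𝔓.p * 𝔓.p) p ∧
    ∃ hy : ∀ P : Place Qb ↥(modularFunctionFieldBar (K * 𝔓.p * 𝔓.p)),
        (p : ℤ) ∣ P.ord ((mltj1PhiU 𝔓 (K * 𝔓.p * 𝔓.p)
          (y : (↥(tbLevF 𝔓 (K * 𝔓.p * 𝔓.p) ⊤))ˣ) :
            (↥(modularFunctionFieldBar (K * 𝔓.p * 𝔓.p)))ˣ) :
              ↥(modularFunctionFieldBar (K * 𝔓.p * 𝔓.p))),
      alpfClass hp0 (mltj1PhiU 𝔓 (K * 𝔓.p * 𝔓.p)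
        (y : (↥(tbLevF 𝔓 (K * 𝔓.p * 𝔓.p) ⊤))ˣ)) hy = x

/-- (G-A) modulo `p` for an abstract triple of valuations `D` whose constants are the constants -/
theorem mltj2_unit_aux (p : ℕ) (hp : p.Prime) (hp2 : p ≠ 2)
    (D : T4nA ↥(tbFix 𝔓 (⊤ : Subgroup 𝔓.I)) ↥(tbLevF 𝔓 (K * 𝔓.p) ⊤)
      ↥(tbLevF 𝔓 (K * 𝔓.p * 𝔓.p) ⊤) 𝔓.p p)
    (hcF : ∀ c : (↥(tbFix 𝔓 (⊤ : Subgroup 𝔓.I)))ˣ,
      ((D.cF c : (↥(tbLevF 𝔓 (K * 𝔓.p * 𝔓.p) ⊤))ˣ) : ↥(tbLevF 𝔓 (K * 𝔓.p * 𝔓.p) ⊤))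
        = algebraMap _ _ (c : ↥(tbFix 𝔓 (⊤ : Subgroup 𝔓.I))))
    (hvert : MltjVertHeckeD 𝔓 K D)
    (W : WeierstrassCurve ℤ) (hΔ : W.Δ ≠ 0) (hirr : W.ModRepIsIrreducible p)
    (x : JZero (K * 𝔓.p * 𝔓.p)) (hxE : x ∈ dlwEig (K * 𝔓.p * 𝔓.p) p W)
    (hI : ∀ σ ∈ 𝔓.I, σ • x = x) : MltjUnitOut 𝔓 K hp.ne_zero D x := by
  have hp0 : p ≠ 0 := hp.ne_zero
  obtain ⟨hxp, hxE'⟩ := mem_dlwEig.mp hxE
  -- a non-Eisenstein prime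
  obtain ⟨ℓ, hℓ, hℓT, hgood, hne⟩ := mltj2_exists_nonEis W hΔ hp hp2 hirr
    (insert p (K * 𝔓.p * 𝔓.p).primeFactors)
  haveI : NeZero ℓ := ⟨hℓ.ne_zero⟩
  rw [Finset.mem_insert, not_or] at hℓT
  have hℓp : ℓ ≠ p := hℓT.1
  have hℓN : ¬ ℓ ∣ K * 𝔓.p * 𝔓.p := fun h =>
    hℓT.2 (Nat.mem_primeFactors.mpr ⟨hℓ, h, NeZero.ne _⟩)
  -- descent to the inertia field
  obtain ⟨y, hyW, hy, hcl⟩ := mltj1_descend 𝔓 (K * 𝔓.p * 𝔓.p) hp0 x hxp hI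
  -- the vertical Hecke relation
  obtain ⟨y', hy'Φ, hinf, hmid, h0⟩ := hvert ℓ hℓ hℓN y
  -- the eigen-relation on functions
  have hT := hxE' ℓ hℓ hℓN hgood hℓp
  rw [← hcl] at hT
  obtain ⟨t, ht⟩ := mltj2_hecke_eq (K * 𝔓.p * 𝔓.p) hp0 hℓ hℓN (W.apOfModel ℓ)
    (mltj1PhiU 𝔓 (K * 𝔓.p * 𝔓.p) y) hy hT
  -- descent of the `p`-th power
  set f : (↥(tbLevF 𝔓 (K * 𝔓.p * 𝔓.p) ⊤))ˣ := y' * (y ^ (W.apOfModel ℓ))⁻¹ with hf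
  have hfΦ : tbPhiF 𝔓 (K * 𝔓.p * 𝔓.p) ⊤ (f : ↥(tbLevF 𝔓 (K * 𝔓.p * 𝔓.p) ⊤))
      = (t : ↥(modularFunctionFieldBar (K * 𝔓.p * 𝔓.p))) ^ p := by
    rw [← coe_mltj1PhiU, hf, map_mul, map_inv, map_zpow, hy'Φ, ht, mul_comm _ (t ^ p),
      mul_inv_cancel_right, Units.val_pow_eq_pow_val]
  obtain ⟨c, g, hc0, hfg⟩ := t4d_root_descend 𝔓 (K * 𝔓.p * 𝔓.p) hp0
    (f : ↥(tbLevF 𝔓 (K * 𝔓.p * 𝔓.p) ⊤)) f.ne_zero ⟨_, hfΦ⟩
  have hg0 : g ≠ 0 := by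
    rintro rfl
    rw [zero_pow hp0, smul_zero] at hfg
    exact f.ne_zero hfg
  have hy'eq : y' = y ^ (W.apOfModel ℓ)
      * (D.cF (Units.mk0 c hc0) * (Units.mk0 g hg0) ^ p) := by
    have h1 : f = D.cF (Units.mk0 c hc0) * (Units.mk0 g hg0) ^ p :=
      t4n_smul_to_units f (D.cF (Units.mk0 c hc0)) c g hg0 p (hcF _) hfg
    rw [← h1, hf, mul_comm y', mul_inv_cancel_left]
  -- the Eisenstein step
  have hcop : IsCoprime ((ℓ : ℤ) + 1 - W.apOfModel ℓ) (p : ℤ) :=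
    ((Nat.prime_iff_prime_int.mp hp).coprime_iff_not_dvd.mpr hne).symm
  have hshape := mltj2_shape_of_hecke D y y' (ℓ : ℤ) (W.apOfModel ℓ)
    hinf hmid h0 (Units.mk0 c hc0) (Units.mk0 g hg0) hy'eq hcop
  obtain ⟨c₁, g₁, hzU⟩ := mltj2_unit_of_shape D hp0 y hshape
  -- the unit
  set u : (↥(tbLevF 𝔓 (K * 𝔓.p * 𝔓.p) ⊤))ˣ :=
    D.cF c₁ * g₁ ^ p with hu
  set z : (↥(tbLevF 𝔓 (K * 𝔓.p * 𝔓.p) ⊤))ˣ := y * u⁻¹ with hz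
  have hcF₁ := hcF c₁
  have huL : u ∈ tWsub ↥(tbFix 𝔓 (⊤ : Subgroup 𝔓.I)) (K * 𝔓.p * 𝔓.p) p :=
    Subgroup.mul_mem _ (t4n_const_mem_tWsub 𝔓 _ p hcF₁) (t4n_pow_mem_tWsub 𝔓 _ p g₁)
  have huQ : u ∈ t4nWbar 𝔓 (K * 𝔓.p * 𝔓.p) p :=
    Subgroup.mul_mem _ (t4n_const_mem_Wbar 𝔓 _ p hcF₁) (t4n_pow_mem_Wbar 𝔓 _ p g₁)
  have hzL : z ∈ tWsub ↥(tbFix 𝔓 (⊤ : Subgroup 𝔓.I)) (K * 𝔓.p * 𝔓.p) p :=
    Subgroup.mul_mem _ hyW (Subgroup.inv_mem _ huL)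
  have hyQ : y ∈ t4nWbar 𝔓 (K * 𝔓.p * 𝔓.p) p := hy
  have hzQ : z ∈ t4nWbar 𝔓 (K * 𝔓.p * 𝔓.p) p :=
    Subgroup.mul_mem _ hyQ (Subgroup.inv_mem _ huQ)
  have hzu : z * u = y := by rw [hz, inv_mul_cancel_right]
  have hzQ' : ∀ P : Place Qb ↥(modularFunctionFieldBar (K * 𝔓.p * 𝔓.p)),
      (p : ℤ) ∣ P.ord ((mltj1PhiU 𝔓 (K * 𝔓.p * 𝔓.p) z :
        (↥(modularFunctionFieldBar (K * 𝔓.p * 𝔓.p)))ˣ) :
          ↥(modularFunctionFieldBar (K * 𝔓.p * 𝔓.p))) := hzQ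
  have h1 := mltj2_class_mul_const_pow 𝔓 (K * 𝔓.p * 𝔓.p) hp0 z u hzQ'
    (by rw [hzu]; exact hy)
    ⟨(c₁ : ↥(tbFix 𝔓 (⊤ : Subgroup 𝔓.I))), (g₁ : ↥(tbLevF 𝔓 (K * 𝔓.p * 𝔓.p) ⊤)), by
      rw [hu, Units.val_mul, hcF₁, Units.val_pow_eq_pow_val, Algebra.smul_def]⟩
  have h2 : alpfClass hp0 (mltj1PhiU 𝔓 (K * 𝔓.p * 𝔓.p) z) hzQ' = x := by
    rw [← hcl, ← h1]
    exact dlw_class_congr hp0 (congrArg (mltj1PhiU 𝔓 (K * 𝔓.p * 𝔓.p)) hzu) _ _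
  exact ⟨⟨z, hzU⟩, hzL, hzQ', h2⟩

/-- **(G-A) modulo `p`**: a class of the `W`-eigenspace of `J₀(K q q)[p]`, `W[p]` irreducible, `p` odd, `p ≠ q`,
which is fixed by the inertia group is the Kummer class of a unit at the three vertical valuations -/
theorem mltj2_unit (p : ℕ) (hp : p.Prime) (hp2 : p ≠ 2)
    (hvert : MltjVertHeckeAt 𝔓 K hK hζ p)
    (W : WeierstrassCurve ℤ) (hΔ : W.Δ ≠ 0) (hirr : W.ModRepIsIrreducible p)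
    (x : JZero (K * 𝔓.p * 𝔓.p)) (hxE : x ∈ dlwEig (K * 𝔓.p * 𝔓.p) p W)
    (hI : ∀ σ ∈ 𝔓.I, σ • x = x) :
    ∃ y : ↥(t4niAFix 𝔓 K hK hζ p).U,
      (y : (↥(tbLevF 𝔓 (K * 𝔓.p * 𝔓.p) ⊤))ˣ) ∈ tWsub ↥(tbFix 𝔓 ⊤) (K * 𝔓.p * 𝔓.p) p ∧
      ∃ hy : ∀ P : Place Qb ↥(modularFunctionFieldBar (K * 𝔓.p * 𝔓.p)),
          (p : ℤ) ∣ P.ord ((mltj1PhiU 𝔓 (K * 𝔓.p * 𝔓.p)
            (y : (↥(tbLevF 𝔓 (K * 𝔓.p * 𝔓.p) ⊤))ˣ) :
              (↥(modularFunctionFieldBar (K * 𝔓.p * 𝔓.p)))ˣ) :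
                ↥(modularFunctionFieldBar (K * 𝔓.p * 𝔓.p))),
        alpfClass hp.ne_zero (mltj1PhiU 𝔓 (K * 𝔓.p * 𝔓.p)
          (y : (↥(tbLevF 𝔓 (K * 𝔓.p * 𝔓.p) ⊤))ˣ)) hy = x :=
  mltj2_unit_aux 𝔓 K p hp hp2 (t4niAFix 𝔓 K hK hζ p) (fun c => rfl) hvert W hΔ hirr x hxE hI

end Main

end

end Fermat.Agent.MLT
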