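/-
MLT / [L2] / P2 (helper1), part 2: **(G-A) + (G-B) modulo `p`, combined with the abelian part**:
a non-zero inertia-fixed class of the `W`-eigenspace of `J₀(K q q)[p]` either forces residual modularity of the
level `K q`, or is the Kummer class of a function `y ∈ D.U`, rational over the inertia field, whose three
residues are `p`-th powers (`MltL2AbTriv`).

Inputs: `MltjVertHeckeAt` (P5, helper7) and `MltL2AbAt` (helper7/helper3/helper5).  No norm relation is used.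
-/
import Mathlib
import Fermat.Agent.Lib.MLT.L2.P2.Unit
import Fermat.Agent.Lib.MLT.L2.AbDefs

set_option autoImplicit false
set_option linter.unusedSectionVars false
set_option linter.unusedVariables false
set_option linter.style.haveILetI false
set_option synthInstance.maxHeartbeats 400000

open WeierstrassCurve

namespace Fermat.Agent.MLT

open HahnSeries ModularCurve AlgebraicCurve Fermat.Agent.T1 Fermat.Agent.T2 Fermat.Agent.T4
  Fermat.Agent.TW Fermat.Agent.S24Lib Fermat.Agent.Delta Fermat.Agent.T3 Fermat.Agent.Alpha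

local notation "Qb" => AlgebraicClosure ℚ
local notation "GQ" => (AlgebraicClosure ℚ ≃ₐ[ℚ] AlgebraicClosure ℚ)

noncomputable section

variable (𝔓 : FFPlace) (K : ℕ) [NeZero K] (hK : ¬ 𝔓.p ∣ K) {ζ : Qb} (hζ : IsPrimitiveRoot ζ 𝔓.p)

/-- the two names of the base change of units are the same map -/
theorem mltj2_PhiU_eq (N : ℕ) [NeZero N] : mltl2PhiU 𝔓 N = mltj1PhiU 𝔓 N := rfl

/-- **(G-A) + (G-B) modulo `p`**: either residual modularity of the level `K q`, or `x` is the Kummer class of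
a function of `D.U` over the inertia field whose three residues are `p`-th powers -/
theorem mltj2_triv (p : ℕ) (hp : p.Prime) (hp2 : p ≠ 2) (hpq : Nat.Coprime p 𝔓.p)
    (hvert : MltjVertHeckeAt 𝔓 K hK hζ p)
    (W : WeierstrassCurve ℤ) (hΔ : W.Δ ≠ 0) (hirr : W.ModRepIsIrreducible p)
    (hab : MltL2AbAt 𝔓 K hK hζ p hp.ne_zero hpq W)
    (x : JZero (K * 𝔓.p * 𝔓.p)) (hxE : x ∈ dlwEig (K * 𝔓.p * 𝔓.p) p W)
    (hI : ∀ σ ∈ 𝔓.I, σ • x = x) :
    W.IsResiduallyModularOfLevel p (K * 𝔓.p) ∨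
    ∃ y : ↥(t4niAFix 𝔓 K hK hζ p).U,
      (y : (↥(tbLevF 𝔓 (K * 𝔓.p * 𝔓.p) ⊤))ˣ) ∈ tWsub ↥(tbFix 𝔓 ⊤) (K * 𝔓.p * 𝔓.p) p ∧
      MltL2AbTriv 𝔓 K hK hζ p hp.ne_zero hpq y ∧
      ∃ hy : ∀ P : Place Qb ↥(modularFunctionFieldBar (K * 𝔓.p * 𝔓.p)),
          (p : ℤ) ∣ P.ord ((mltj1PhiU 𝔓 (K * 𝔓.p * 𝔓.p)
            (y : (↥(tbLevF 𝔓 (K * 𝔓.p * 𝔓.p) ⊤))ˣ) :
              (↥(modularFunctionFieldBar (K * 𝔓.p * 𝔓.p)))ˣ) :
                ↥(modularFunctionFieldBar (K * 𝔓.p * 𝔓.p))),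
        alpfClass hp.ne_zero (mltj1PhiU 𝔓 (K * 𝔓.p * 𝔓.p)
          (y : (↥(tbLevF 𝔓 (K * 𝔓.p * 𝔓.p) ⊤))ˣ)) hy = x := by
  obtain ⟨y, hyL, hy, hcl⟩ := mltj2_unit 𝔓 K hK hζ p hp hp2 hvert W hΔ hirr x hxE hI
  by_cases htriv : MltL2AbTriv 𝔓 K hK hζ p hp.ne_zero hpq y
  · exact Or.inr ⟨y, hyL, htriv, hy, hcl⟩
  · refine Or.inl (hab y hy ?_ htriv)
    have : alpfClass hp.ne_zero (mltl2PhiU 𝔓 (K * 𝔓.p * 𝔓.p)
        (y : (↥(tbLevF 𝔓 (K * 𝔓.p * 𝔓.p) ⊤))ˣ)) hy = x := hcl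
    rw [this]
    exact hxE

end

end Fermat.Agent.MLT
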